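/-
helper93 (P-FF / FF-G5, row 623): generic sections on a function field with a Riemann package
over an algebraically closed field of characteristic `p` -- abstract form.

For `n` large there is a function with poles only at `Q∞`, of exact order `n`, with a simple zero
at `Q`, all of whose zeros are simple and lie outside a given finite set (except `Q`).
Pencil argument: `f_c = h₁ - c h₀` with `ord_Q h₁ = 1`, `ord_Q h₀ = 2`; `u = h₀ / h₁` is a
separating element, and the branch locus of `u` is finite (Hurwitz).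
-/
import Fermat.Agent.H19.RH.RamIdx
import Fermat.Agent.H16.FFInsep
import Fermat.Agent.H16.FFBasic

set_option autoImplicit false
set_option linter.style.haveILetI false

noncomputable section

open AlgebraicCurve IntermediateField
open Fermat.Agent.H27.ESD (RiemannPackage ramIdx HurwitzStatement)

namespace Fermat.Agent.H93.FF

variable {K F : Type} [Field K] [Field F] [Algebra K F]

/-- An element of `L(D)` outside `L(D - v)` has order exactly `-D v` at `v`. -/
theorem gs_ord_eq_of_mem_of_notMem {D : Divisor K F} {v : Place K F} {f : F}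
    (h1 : f ∈ riemannRochSpace D) (h2 : f ∉ riemannRochSpace (D - Finsupp.single v 1)) :
    f ≠ 0 ∧ v.ord f = -D v := by
  classical
  have hf : f ≠ 0 := by
    rintro rfl
    exact h2 (Submodule.zero_mem _)
  refine ⟨hf, ?_⟩
  rw [mem_riemannRochSpace_iff] at h1 h2
  push Not at h2
  obtain ⟨w, -, hw⟩ := h2
  have hwv : w = v := by
    by_contra hne
    have : (D - Finsupp.single v 1 : Divisor K F) w = D w := by
      rw [Finsupp.sub_apply, Finsupp.single_apply, if_neg (Ne.symm hne), sub_zero]
    rw [this] at hw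
    rcases h1 w with h | h
    · exact hf h
    · omega
  subst hwv
  have : (D - Finsupp.single w 1 : Divisor K F) w = D w - 1 := by
    rw [Finsupp.sub_apply, Finsupp.single_eq_same]
  rw [this] at hw
  rcases h1 w with h | h
  · exact absurd h hf
  · omega

theorem gs_ord_ge_of_mem {D : Divisor K F} {f : F} (h1 : f ∈ riemannRochSpace D) (hf : f ≠ 0)
    (v : Place K F) : -D v ≤ v.ord f := by
  rw [mem_riemannRochSpace_iff] at h1
  rcases h1 v with h | h
  · exact absurd h hf
  · exact h

section RR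

variable {g : ℕ} (pkg : RiemannPackage K F g) {c : ℤ}
  (hc : ∀ D : Divisor K F, c ≤ Divisor.degree D →
    (Module.finrank K (riemannRochSpace D) : ℤ) = Divisor.degree D + 1 - (g : ℤ))

include pkg hc

/-- For `deg D` large, `L(D - v)` is a proper subspace of `L(D)`. -/
theorem gs_comap_ne_top (D : Divisor K F) (hD : c + 1 ≤ Divisor.degree D) (v : Place K F) :
    (riemannRochSpace (D - Finsupp.single v 1)).comap (riemannRochSpace D).subtype ≠ ⊤ := by
  intro htop
  have hle : riemannRochSpace D ≤ riemannRochSpace (D - Finsupp.single v 1) := by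
    intro f hf
    have : (⟨f, hf⟩ : riemannRochSpace D) ∈
        (riemannRochSpace (D - Finsupp.single v 1)).comap (riemannRochSpace D).subtype :=
      htop ▸ Submodule.mem_top
    exact this
  have hdeg : Divisor.degree (D - Finsupp.single v 1) = Divisor.degree D - 1 := by
    rw [map_sub, Divisor.degree_single, pkg.deg_one v]
    simp
  haveI := pkg.finite (D - Finsupp.single v 1)
  have h1 := Submodule.finrank_mono hle
  have h2 := hc D (by omega)
  have h3 := hc (D - Finsupp.single v 1) (by rw [hdeg]; omega)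
  rw [hdeg] at h3
  have h1' : (Module.finrank K (riemannRochSpace D) : ℤ)
      ≤ (Module.finrank K (riemannRochSpace (D - Finsupp.single v 1)) : ℤ) := by
    exact_mod_cast h1
  omega

/-- For `deg D` large there is an element of `L(D)` of exact order `-D v` at finitely many
prescribed places. -/
theorem gs_exists_exact [Infinite K] (D : Divisor K F) (hD : c + 1 ≤ Divisor.degree D)
    (S : Finset (Place K F)) :
    ∃ f : F, f ≠ 0 ∧ (∀ v : Place K F, -D v ≤ v.ord f) ∧ ∀ v ∈ S, v.ord f = -D v := by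
  classical
  by_cases hS : S.Nonempty
  · obtain ⟨x, hx⟩ := Submodule.exists_forall_notMem_of_forall_ne_top (ι := S)
      (fun v => (riemannRochSpace (D - Finsupp.single (v : Place K F) 1)).comap
        (riemannRochSpace D).subtype)
      (fun v => gs_comap_ne_top pkg hc D hD v)
    obtain ⟨v₀, hv₀⟩ := hS
    have hx0 : (x : F) ≠ 0 := (gs_ord_eq_of_mem_of_notMem x.2 (hx ⟨v₀, hv₀⟩)).1
    exact ⟨x, hx0, fun v => gs_ord_ge_of_mem x.2 hx0 v,
      fun v hv => (gs_ord_eq_of_mem_of_notMem x.2 (hx ⟨v, hv⟩)).2⟩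
  · rw [Finset.not_nonempty_iff_eq_empty] at hS
    subst hS
    -- take any place
    haveI := pkg.infinite_places
    obtain ⟨v₀⟩ : Nonempty (Place K F) := inferInstance
    obtain ⟨x, hx⟩ := Submodule.exists_forall_notMem_of_forall_ne_top (ι := Unit)
      (fun _ => (riemannRochSpace (D - Finsupp.single v₀ 1)).comap
        (riemannRochSpace D).subtype)
      (fun _ => gs_comap_ne_top pkg hc D hD v₀)
    have hx0 : (x : F) ≠ 0 := (gs_ord_eq_of_mem_of_notMem x.2 (hx ())).1
    exact ⟨x, hx0, fun v => gs_ord_ge_of_mem x.2 hx0 v, fun v hv => absurd hv (by simp)⟩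

end RR

section Pencil

/-- The set of constants `c` such that `1 - c u` vanishes at `v` has at most one element. -/
theorem gs_subsingleton_const (v : Place K F) (u : F) :
    {c : K | 0 < v.ord (1 - algebraMap K F c * u)}.Subsingleton := by
  intro c₁ h₁ c₂ h₂
  by_contra hne
  simp only [Set.mem_ofPred_eq] at h₁ h₂
  have hne1 : (1 - algebraMap K F c₁ * u) ≠ 0 := by
    intro h
    rw [h, Place.ord_zero] at h₁
    exact lt_irrefl _ h₁
  have hne2 : (1 - algebraMap K F c₂ * u) ≠ 0 := by
    intro h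
    rw [h, Place.ord_zero] at h₂
    exact lt_irrefl _ h₂
  have hsum : algebraMap K F c₂ * (1 - algebraMap K F c₁ * u)
      + (-(algebraMap K F c₁ * (1 - algebraMap K F c₂ * u))) = algebraMap K F (c₂ - c₁) := by
    rw [map_sub]; ring
  have hcc : algebraMap K F (c₂ - c₁) ≠ 0 := by
    rw [Ne, map_eq_zero, sub_eq_zero]
    exact fun h => hne h.symm
  have h0 : v.ord (algebraMap K F (c₂ - c₁)) = 0 := Fermat.Agent.H23.ord_algebraMap v _
  have h1 : 1 ≤ v.ord (algebraMap K F c₂ * (1 - algebraMap K F c₁ * u)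
      + (-(algebraMap K F c₁ * (1 - algebraMap K F c₂ * u)))) := by
    refine Fermat.Agent.H23.ord_add_ge v (by rw [hsum]; exact hcc) 1 ?_ ?_
    · by_cases hc2 : c₂ = 0
      · left; simp [hc2]
      · right
        rw [Place.ord_mul _ (by simpa using hc2) hne1, Fermat.Agent.H23.ord_algebraMap]
        omega
    · by_cases hc1 : c₁ = 0
      · left; simp [hc1]
      · right
        rw [Fermat.Agent.H23.ord_neg, Place.ord_mul _ (by simpa using hc1) hne2,
          Fermat.Agent.H23.ord_algebraMap]
        omega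
  rw [hsum, h0] at h1
  omega

/-- Orders of `1 - c u` in terms of the order of `u`. -/
theorem gs_ord_one_sub (v : Place K F) {u : F} {c : K} (hc : c ≠ 0)
    (hw : 1 - algebraMap K F c * u ≠ 0) :
    (v.ord u < 0 → v.ord (1 - algebraMap K F c * u) = v.ord u) ∧
    (0 < v.ord u → v.ord (1 - algebraMap K F c * u) = 0) ∧
    (0 ≤ v.ord u → 0 ≤ v.ord (1 - algebraMap K F c * u)) := by
  have hcF : algebraMap K F c ≠ 0 := by simpa using hc
  have hcu : u ≠ 0 → v.ord (-(algebraMap K F c * u)) = v.ord u := by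
    intro hu
    rw [Fermat.Agent.H23.ord_neg, Place.ord_mul _ hcF hu, Fermat.Agent.H23.ord_algebraMap, zero_add]
  have hu0 : ∀ {u' : F}, v.ord u' ≠ 0 → u' ≠ 0 := by
    rintro u' h rfl
    exact h (Place.ord_zero v)
  have e1 : 1 - algebraMap K F c * u = 1 + (-(algebraMap K F c * u)) := by ring
  have e2 : 1 - algebraMap K F c * u = (-(algebraMap K F c * u)) + 1 := by ring
  refine ⟨fun h => ?_, fun h => ?_, fun h => ?_⟩
  · have hu : u ≠ 0 := hu0 (by omega)
    rw [e2, Fermat.Agent.H23.ord_add_eq_of_lt v (neg_ne_zero.mpr (mul_ne_zero hcF hu)) one_ne_zero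
      (by rw [hcu hu, Place.ord_one]; exact h), hcu hu]
  · have hu : u ≠ 0 := hu0 (by omega)
    rw [e1, Fermat.Agent.H23.ord_add_eq_of_lt v one_ne_zero
      (neg_ne_zero.mpr (mul_ne_zero hcF hu)) (by rw [hcu hu, Place.ord_one]; exact h),
      Place.ord_one]
  · rw [e1]
    refine Fermat.Agent.H23.ord_add_ge v (by rw [← e1]; exact hw) 0 (Or.inr ?_) ?_
    · rw [Place.ord_one]
    · by_cases hu : u = 0
      · left; simp [hu]
      · right; rw [hcu hu]; exact h

/-- A zero of order `≥ 2` of `1 - c u` is a ramification point of `u`. -/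
theorem gs_ramIdx_of_ord_ge_two (v : Place K F) {u : F} {c : K} (hc : c ≠ 0)
    (h : 2 ≤ v.ord (1 - algebraMap K F c * u)) : 1 < ramIdx u v := by
  have hcF : algebraMap K F c ≠ 0 := by simpa using hc
  have heq : u - algebraMap K F c⁻¹
      = -(algebraMap K F c⁻¹) * (1 - algebraMap K F c * u) := by
    rw [map_inv₀]
    field_simp
    ring
  have hw : 1 - algebraMap K F c * u ≠ 0 := by
    intro h0
    rw [h0, Place.ord_zero] at h
    omega
  have hord : v.ord (u - algebraMap K F c⁻¹) = v.ord (1 - algebraMap K F c * u) := by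
    rw [heq, Place.ord_mul _ (neg_ne_zero.mpr (by simpa using hc)) hw, Fermat.Agent.H23.ord_neg,
      Fermat.Agent.H23.ord_algebraMap, zero_add]
  have h2 := Fermat.Agent.H19.rh_ramIdx_of_ord_sub_pos' v (y := u) (c₀ := c⁻¹)
    (by rw [hord]; omega)
  rw [hord] at h2
  have : (1 : ℤ) < (ramIdx u v : ℤ) := by omega
  exact_mod_cast this

end Pencil

/-- **Generic sections (abstract form).**  Let `F / K` be a function field with a Riemann
package over an algebraically closed field of characteristic `p`, admitting a separating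
element.  For `n` large there is a function with poles only at `Q∞`, of exact order `n`, with a
simple zero at `Q`, all of whose zeros are simple and lie outside a given finite set (except
`Q`). -/
theorem genericSection_abs [IsAlgClosed K] (p : ℕ) [Fact p.Prime] [CharP K p]
    (x : F) [FiniteDimensional K⟮x⟯ F] [Algebra.IsSeparable K⟮x⟯ F]
    (hH : HurwitzStatement) {g : ℕ} (pkg : RiemannPackage K F g)
    (Qinf Q : Place K F) (hQ : Q ≠ Qinf) (bad : Finset (Place K F)) :
    ∃ n₀ : ℕ, ∀ n : ℕ, n₀ ≤ n →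
      ∃ f : F, f ≠ 0 ∧ Qinf.ord f = -(n : ℤ) ∧ Q.ord f = 1 ∧
        (∀ v, v ≠ Qinf → 0 ≤ v.ord f ∧ v.ord f ≤ 1) ∧
        ∀ v ∈ bad, v ≠ Q → v ≠ Qinf → v.ord f = 0 := by
  classical
  obtain ⟨c, hc⟩ := pkg.eq_of_large
  refine ⟨(c + 3).toNat, fun n hn => ?_⟩
  have hnc : c + 3 ≤ (n : ℤ) := by
    have := Int.self_le_toNat (c + 3)
    omega
  -- the two divisors
  set D₁ : Divisor K F := Finsupp.single Qinf (n : ℤ) - Finsupp.single Q 1 with hD₁
  set D₀ : Divisor K F := Finsupp.single Qinf (n : ℤ) - Finsupp.single Q 2 with hD₀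
  have hdeg₁ : Divisor.degree D₁ = (n : ℤ) - 1 := by
    rw [hD₁, map_sub, Divisor.degree_single, Divisor.degree_single, pkg.deg_one, pkg.deg_one]
    simp
  have hdeg₀ : Divisor.degree D₀ = (n : ℤ) - 2 := by
    rw [hD₀, map_sub, Divisor.degree_single, Divisor.degree_single, pkg.deg_one, pkg.deg_one]
    simp
  have hD₁Q : D₁ Q = -1 := by
    rw [hD₁, Finsupp.sub_apply, Finsupp.single_apply, Finsupp.single_apply,
      if_neg (Ne.symm hQ), if_pos rfl]
    norm_num
  have hD₁inf : D₁ Qinf = (n : ℤ) := by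
    rw [hD₁, Finsupp.sub_apply, Finsupp.single_apply, Finsupp.single_apply,
      if_neg hQ, if_pos rfl]
    norm_num
  have hD₁v : ∀ v, v ≠ Q → v ≠ Qinf → D₁ v = 0 := by
    intro v h1 h2
    rw [hD₁, Finsupp.sub_apply, Finsupp.single_apply, Finsupp.single_apply,
      if_neg (Ne.symm h1), if_neg (Ne.symm h2)]
    norm_num
  have hD₀Q : D₀ Q = -2 := by
    rw [hD₀, Finsupp.sub_apply, Finsupp.single_apply, Finsupp.single_apply,
      if_neg (Ne.symm hQ), if_pos rfl]
    norm_num
  have hD₀inf : D₀ Qinf = (n : ℤ) := by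
    rw [hD₀, Finsupp.sub_apply, Finsupp.single_apply, Finsupp.single_apply,
      if_neg hQ, if_pos rfl]
    norm_num
  have hD₀v : ∀ v, v ≠ Q → v ≠ Qinf → D₀ v = 0 := by
    intro v h1 h2
    rw [hD₀, Finsupp.sub_apply, Finsupp.single_apply, Finsupp.single_apply,
      if_neg (Ne.symm h1), if_neg (Ne.symm h2)]
    norm_num
  -- `h₁` with a simple zero at `Q`
  obtain ⟨h1, h1ne, h1ge, h1ex⟩ := gs_exists_exact pkg hc D₁ (by omega) {Q, Qinf}
  have h1Q : Q.ord h1 = 1 := by
    rw [h1ex Q (by simp), hD₁Q]; norm_num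
  have h1inf : Qinf.ord h1 = -(n : ℤ) := by
    rw [h1ex Qinf (by simp), hD₁inf]
  have h1reg : ∀ v, v ≠ Q → v ≠ Qinf → 0 ≤ v.ord h1 := by
    intro v hv hv'
    have := h1ge v
    rw [hD₁v v hv hv'] at this
    simpa using this
  obtain ⟨E, hE, -⟩ := pkg.principal.exists_divisor h1 h1ne
  -- `h₀` with a double zero at `Q`, not vanishing at the other zeros of `h₁`
  obtain ⟨h0, h0ne, h0ge, h0ex⟩ :=
    gs_exists_exact pkg hc D₀ (by omega) (insert Q (insert Qinf E.support))
  have h0Q : Q.ord h0 = 2 := by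
    rw [h0ex Q (by simp), hD₀Q]; norm_num
  have h0inf : Qinf.ord h0 = -(n : ℤ) := by
    rw [h0ex Qinf (by simp), hD₀inf]
  have h0reg : ∀ v, v ≠ Q → v ≠ Qinf → 0 ≤ v.ord h0 := by
    intro v hv hv'
    have := h0ge v
    rw [hD₀v v hv hv'] at this
    simpa using this
  have h0Z : ∀ v, v ≠ Q → v ≠ Qinf → v.ord h1 ≠ 0 → v.ord h0 = 0 := by
    intro v hv hv' hne
    have hmem : v ∈ E.support := by
      rw [Finsupp.mem_support_iff, hE]
      exact hne
    rw [h0ex v (by simp [hmem]), hD₀v v hv hv']
    simp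
  -- the separating element `u = h₀ / h₁`
  set u : F := h0 / h1 with hu
  have hordu : ∀ v : Place K F, v.ord u = v.ord h0 - v.ord h1 := by
    intro v
    rw [hu, div_eq_mul_inv, Place.ord_mul _ h0ne (inv_ne_zero h1ne), Place.ord_inv]
    ring
  have huQ : Q.ord u = 1 := by
    rw [hordu, h0Q, h1Q]; norm_num
  have hune : u ≠ 0 := div_ne_zero h0ne h1ne
  have hutr : Transcendental K u := by
    intro halg
    obtain ⟨c₀, hc₀⟩ := Fermat.Agent.H16.ffb_exists_algebraMap_eq_of_isAlgebraic halg
    have := Fermat.Agent.H23.ord_algebraMap Q c₀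
    rw [hc₀, huQ] at this
    exact one_ne_zero this
  haveI hfin : FiniteDimensional K⟮u⟯ F :=
    Fermat.Agent.H16.ffb_finiteDimensional_of_transcendental x u hutr
  have hnotpow : ∀ w : F, w ^ p ≠ u := by
    intro w hw
    have h3 := congrArg Q.ord hw
    rw [← zpow_natCast, Place.ord_zpow, huQ] at h3
    have hp2 : 2 ≤ p := (Fact.out : p.Prime).two_le
    have hdvd : (p : ℤ) ∣ 1 := ⟨_, h3.symm⟩
    have := Int.eq_one_of_dvd_one (by positivity) hdvd
    omega
  haveI hsep : Algebra.IsSeparable K⟮u⟯ F :=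
    Fermat.Agent.H16.ffb_isSeparable_of_not_pow p x u hnotpow
  have hram : {v : Place K F | 1 < ramIdx u v}.Finite := (hH K F u hutr hfin hsep g pkg).1
  set R : Finset (Place K F) := insert Qinf (hram.toFinset ∪ bad) with hR
  -- the constants to avoid
  have hBfin : (({0} : Set K) ∪ ⋃ v ∈ (R : Set (Place K F)),
      {c : K | 0 < v.ord (1 - algebraMap K F c * u)}).Finite := by
    refine (Set.finite_singleton 0).union ?_
    exact Set.Finite.biUnion (Finset.finite_toSet R)
      (fun v _ => (gs_subsingleton_const v u).finite)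
  obtain ⟨c₁, hcB⟩ := hBfin.exists_notMem
  have hc0 : c₁ ≠ 0 := fun h => hcB (Or.inl (by simp [h]))
  have hcC : ∀ v ∈ R, ¬ 0 < v.ord (1 - algebraMap K F c₁ * u) := by
    intro v hv hpos
    exact hcB (Or.inr (Set.mem_biUnion (Finset.mem_coe.mpr hv) hpos))
  set w : F := 1 - algebraMap K F c₁ * u with hw
  have hwne : w ≠ 0 := by
    intro h0
    have h1' : algebraMap K F c₁ * u = 1 := by
      rw [hw] at h0
      linear_combination -h0
    have h3 := congrArg Q.ord h1'
    rw [Place.ord_mul _ (by simpa using hc0) hune, Fermat.Agent.H23.ord_algebraMap, huQ,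
      Place.ord_one] at h3
    omega
  have hordf : ∀ v : Place K F, v.ord (h1 * w) = v.ord h1 + v.ord w :=
    fun v => Place.ord_mul v h1ne hwne
  have key : ∀ v, v ≠ Q → v ≠ Qinf →
      0 ≤ v.ord (h1 * w) ∧ v.ord (h1 * w) ≤ 1 ∧ (v ∈ bad → v.ord (h1 * w) = 0) := by
    intro v hvQ hvinf
    have a1 := h1reg v hvQ hvinf
    have a0 := h0reg v hvQ hvinf
    obtain ⟨b1, -, b3⟩ := gs_ord_one_sub v (u := u) hc0 hwne
    rcases eq_or_lt_of_le a1 with h | h
    · have hu' : v.ord u = v.ord h0 := by rw [hordu, ← h, sub_zero]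
      have hw0 : 0 ≤ v.ord w := b3 (by omega)
      have hf : v.ord (h1 * w) = v.ord w := by rw [hordf, ← h, zero_add]
      rw [hf]
      refine ⟨hw0, ?_, ?_⟩
      · by_contra hgt
        have h2 : 2 ≤ v.ord w := by omega
        have hr := gs_ramIdx_of_ord_ge_two v hc0 h2
        have hvR : v ∈ R := by
          rw [hR]
          exact Finset.mem_insert_of_mem (Finset.mem_union_left _ (hram.mem_toFinset.mpr hr))
        exact hcC v hvR (by omega)
      · intro hvb
        have hvR : v ∈ R := by
          rw [hR]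
          exact Finset.mem_insert_of_mem (Finset.mem_union_right _ hvb)
        have := hcC v hvR
        omega
    · have h0' := h0Z v hvQ hvinf (by omega)
      have hu' : v.ord u = -v.ord h1 := by rw [hordu, h0', zero_sub]
      have hw' : v.ord w = v.ord u := b1 (by omega)
      have hf : v.ord (h1 * w) = 0 := by rw [hordf, hw', hu']; omega
      rw [hf]
      exact ⟨le_rfl, by norm_num, fun _ => rfl⟩
  refine ⟨h1 * w, mul_ne_zero h1ne hwne, ?_, ?_, ?_, ?_⟩
  · obtain ⟨-, -, b3⟩ := gs_ord_one_sub Qinf (u := u) hc0 hwne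
    have hu' : Qinf.ord u = 0 := by rw [hordu, h0inf, h1inf]; omega
    have hw0 : 0 ≤ Qinf.ord w := b3 (by omega)
    have := hcC Qinf (by rw [hR]; exact Finset.mem_insert_self _ _)
    rw [hordf, h1inf]
    omega
  · obtain ⟨-, b2, -⟩ := gs_ord_one_sub Q (u := u) hc0 hwne
    have hw0 : Q.ord w = 0 := b2 (by omega)
    rw [hordf, h1Q, hw0]
    norm_num
  · intro v hv
    by_cases hvQ : v = Q
    · rw [hvQ]
      obtain ⟨-, b2, -⟩ := gs_ord_one_sub Q (u := u) hc0 hwne
      have hw0 : Q.ord w = 0 := b2 (by omega)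
      rw [hordf, h1Q, hw0]
      norm_num
    · exact ⟨(key v hvQ hv).1, (key v hvQ hv).2.1⟩
  · intro v hvb hvQ hvinf
    exact (key v hvQ hvinf).2.2 hvb

end Fermat.Agent.H93.FF
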