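/-
helper93 (P-FF / FF-G7-AUX, row 774): the auxiliary sections -- abstract part.

* `aux_exists_successive`: successive choice of pairwise compatible objects along a finite index
  type;
* `aux_one`: the set of extra zeros of a generic section and its cardinality;
* `aux_family`: from the generic section property, a family of sections with a simple zero at
  prescribed places, simple zeros only, pairwise disjoint sets of extra zeros avoiding a given
  finite set.
-/
import Fermat.Agent.H58.RR.Basic

set_option autoImplicit false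
set_option linter.style.haveILetI false

noncomputable section

open AlgebraicCurve

namespace Fermat.Agent.H93.FF

/-- Successive choice: if every index admits a good object compatible with any finite set of
previously chosen objects, there is a family of good, pairwise compatible objects. -/
theorem aux_exists_successive {J X : Type*} [Finite J] (good : J → X → Prop)
    (compat : X → X → Prop)
    (hstep : ∀ (a : J) (C : Finset X), ∃ x, good a x ∧ ∀ y ∈ C, compat x y ∧ compat y x) :
    ∃ c : J → X, (∀ a, good a (c a)) ∧ ∀ a b, a ≠ b → compat (c a) (c b) := by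
  classical
  haveI := Fintype.ofFinite J
  rcases isEmpty_or_nonempty X with hX | hX
  · have hJ : IsEmpty J := ⟨fun a => by
      obtain ⟨x, -⟩ := hstep a ∅
      exact hX.elim x⟩
    exact ⟨fun a => hJ.elim a, fun a => hJ.elim a, fun a => hJ.elim a⟩
  obtain ⟨x₀⟩ := hX
  have key : ∀ T : Finset J, ∃ c : J → X, (∀ a ∈ T, good a (c a)) ∧
      ∀ a ∈ T, ∀ b ∈ T, a ≠ b → compat (c a) (c b) := by
    intro T
    induction T using Finset.induction_on with
    | empty => exact ⟨fun _ => x₀, by simp, by simp⟩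
    | insert a T ha ih =>
      obtain ⟨c, hc1, hc2⟩ := ih
      obtain ⟨x, hx1, hx2⟩ := hstep a (T.image c)
      have hne : ∀ b ∈ T, b ≠ a := fun b hb h => ha (h ▸ hb)
      refine ⟨Function.update c a x, ?_, ?_⟩
      · intro b hb
        rcases Finset.mem_insert.mp hb with h | hb
        · rw [h, Function.update_self]
          exact hx1
        · rw [Function.update_of_ne (hne b hb)]
          exact hc1 b hb
      · intro b hb d hd hbd
        rcases Finset.mem_insert.mp hb with h | hb
        · rcases Finset.mem_insert.mp hd with h' | hd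
          · exact absurd (h.trans h'.symm) hbd
          · rw [h, Function.update_self, Function.update_of_ne (hne d hd)]
            exact (hx2 _ (Finset.mem_image_of_mem c hd)).1
        · rcases Finset.mem_insert.mp hd with h' | hd
          · rw [h', Function.update_self, Function.update_of_ne (hne b hb)]
            exact (hx2 _ (Finset.mem_image_of_mem c hb)).2
          · rw [Function.update_of_ne (hne b hb), Function.update_of_ne (hne d hd)]
            exact hc2 b hb d hd hbd
  obtain ⟨c, h1, h2⟩ := key Finset.univ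
  exact ⟨c, fun a => h1 a (Finset.mem_univ a),
    fun a b hab => h2 a (Finset.mem_univ a) b (Finset.mem_univ b) hab⟩

variable {K F : Type*} [Field K] [Field F] [Algebra K F]

/-- The divisor data of one auxiliary section `f`: pole of exact order `n ≥ m` at `Qinf` and
nowhere else, a simple zero at `Q`, simple zeros at the points of `Z`, no other zeros; `Z`
avoids `Qinf` and the finite set `B₀`. -/
structure IsAuxOne (Qinf Q : Place K F) (B₀ : Finset (Place K F)) (m n : ℕ) (f : F)
    (Z : Finset (Place K F)) : Prop where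
  le : m ≤ n
  ne_zero : f ≠ 0
  pole : Qinf.ord f = -(n : ℤ)
  zero_main : Q.ord f = 1
  reg : ∀ v, v ≠ Qinf → 0 ≤ v.ord f
  zero_extra : ∀ v ∈ Z, v.ord f = 1
  zero_else : ∀ v, v ≠ Qinf → v ≠ Q → v ∉ Z → v.ord f = 0
  qinf_notMem : Qinf ∉ Z
  avoid : ∀ v ∈ B₀, v ∉ Z
  card : Z.card + 1 = n

/-- The set of extra zeros of a generic section, and its cardinality. -/
theorem aux_one (hdeg : ∀ v : Place K F, v.deg = 1) [HasPrincipalDivisors K F]
    {Qinf Q : Place K F} (hQ : Q ≠ Qinf) (bad : Finset (Place K F)) {n : ℕ} {f : F}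
    (hf0 : f ≠ 0) (hinf : Qinf.ord f = -(n : ℤ)) (hQ1 : Q.ord f = 1)
    (hreg : ∀ v, v ≠ Qinf → 0 ≤ v.ord f ∧ v.ord f ≤ 1)
    (hbad : ∀ v ∈ bad, v ≠ Q → v ≠ Qinf → v.ord f = 0) :
    ∃ Z : Finset (Place K F), Qinf ∉ Z ∧ Q ∉ Z ∧ (∀ v ∈ Z, v.ord f = 1) ∧
      (∀ v, v ≠ Qinf → v ≠ Q → v ∉ Z → v.ord f = 0) ∧ Z.card + 1 = n ∧ Disjoint Z bad := by
  classical
  obtain ⟨D, hD, hD0⟩ := HasPrincipalDivisors.exists_divisor (K := K) f hf0
  set Z : Finset (Place K F) := D.support.filter (fun v => v ≠ Qinf ∧ v ≠ Q) with hZ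
  have hmem : ∀ v, v ∈ Z ↔ v.ord f ≠ 0 ∧ v ≠ Qinf ∧ v ≠ Q := by
    intro v
    rw [hZ, Finset.mem_filter, Finsupp.mem_support_iff, hD]
  have h1 : ∀ v ∈ Z, v.ord f = 1 := by
    intro v hv
    obtain ⟨h0, hv1, hv2⟩ := (hmem v).mp hv
    have := hreg v hv1
    omega
  have hQinfZ : Qinf ∉ Z := fun h => ((hmem _).mp h).2.1 rfl
  have hQZ : Q ∉ Z := fun h => ((hmem _).mp h).2.2 rfl
  refine ⟨Z, hQinfZ, hQZ, h1, ?_, ?_, ?_⟩
  · intro v hv1 hv2 hv
    by_contra h0
    exact hv ((hmem v).mpr ⟨h0, hv1, hv2⟩)
  · have hsub : D.support ⊆ insert Qinf (insert Q Z) := by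
      intro v hv
      rw [Finsupp.mem_support_iff, hD] at hv
      by_cases hv1 : v = Qinf
      · rw [hv1]
        exact Finset.mem_insert_self _ _
      by_cases hv2 : v = Q
      · rw [hv2]
        exact Finset.mem_insert_of_mem (Finset.mem_insert_self _ _)
      exact Finset.mem_insert_of_mem (Finset.mem_insert_of_mem ((hmem v).mpr ⟨hv, hv1, hv2⟩))
    have hsum : Divisor.degree D = ∑ v ∈ insert Qinf (insert Q Z), D v := by
      rw [Fermat.Agent.H58.rr_degree_eq_sum_of_deg_one hdeg]
      exact Finsupp.sum_of_support_subset D hsub (fun _ n => n) (fun _ _ => rfl)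
    have hQinfnot : Qinf ∉ insert Q Z := by
      rw [Finset.mem_insert, not_or]
      exact ⟨fun h => hQ h.symm, hQinfZ⟩
    have hZsum : ∑ v ∈ Z, D v = (Z.card : ℤ) := by
      rw [Finset.sum_congr rfl (fun v hv => by rw [hD, h1 v hv])]
      simp
    rw [Finset.sum_insert hQinfnot, Finset.sum_insert hQZ, hZsum, hD, hD, hinf, hQ1, hD0]
      at hsum
    omega
  · rw [Finset.disjoint_left]
    intro v hv hvb
    obtain ⟨h0, hv1, hv2⟩ := (hmem v).mp hv
    exact h0 (hbad v hvb hv2 hv1)

/-- **Auxiliary family (abstract form).**  From the generic section property at `Qinf`: a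
family of sections `f a` with a simple zero at `Qt a`, poles only at `Qinf` (of order
`nn a ≥ m`), simple zeros only, with pairwise disjoint sets of extra zeros `Zx a` avoiding the
finite set `B₀`. -/
theorem aux_family (hdeg : ∀ v : Place K F, v.deg = 1) [HasPrincipalDivisors K F]
    (Qinf : Place K F)
    (hGen : ∀ Q : Place K F, Q ≠ Qinf → ∀ bad : Finset (Place K F), ∃ n₀ : ℕ, ∀ n : ℕ,
      n₀ ≤ n → ∃ f : F, f ≠ 0 ∧ Qinf.ord f = -(n : ℤ) ∧ Q.ord f = 1 ∧
        (∀ v, v ≠ Qinf → 0 ≤ v.ord f ∧ v.ord f ≤ 1) ∧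
        ∀ v ∈ bad, v ≠ Q → v ≠ Qinf → v.ord f = 0)
    {J : Type*} [Finite J] (Qt : J → Place K F) (hQt : ∀ a, Qt a ≠ Qinf)
    (B₀ : Finset (Place K F)) (m : ℕ) :
    ∃ (nn : J → ℕ) (f : J → F) (Zx : J → Finset (Place K F)),
      (∀ a, IsAuxOne Qinf (Qt a) B₀ m (nn a) (f a) (Zx a)) ∧
      ∀ a b, a ≠ b → Disjoint (Zx a) (Zx b) := by
  classical
  obtain ⟨c, hc1, hc2⟩ := aux_exists_successive (J := J) (X := ℕ × F × Finset (Place K F))
    (fun a x => IsAuxOne Qinf (Qt a) B₀ m x.1 x.2.1 x.2.2)
    (fun x y => Disjoint x.2.2 y.2.2) (by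
      intro a C
      set bad : Finset (Place K F) := B₀ ∪ C.biUnion (fun x => x.2.2) with hbad
      obtain ⟨n₀, hn₀⟩ := hGen (Qt a) (hQt a) bad
      obtain ⟨f, hf0, hinf, hQ1, hreg, hb⟩ := hn₀ (max n₀ m) (le_max_left _ _)
      obtain ⟨Z, hZ1, hZ2, hZ3, hZ4, hZ5, hZ6⟩ :=
        aux_one hdeg (hQt a) bad hf0 hinf hQ1 hreg hb
      refine ⟨(max n₀ m, f, Z), ?_, ?_⟩
      · exact
          { le := le_max_right _ _
            ne_zero := hf0
            pole := hinf
            zero_main := hQ1
            reg := fun v hv => (hreg v hv).1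
            zero_extra := hZ3
            zero_else := hZ4
            qinf_notMem := hZ1
            avoid := fun v hv hvZ =>
              Finset.disjoint_left.mp hZ6 hvZ (Finset.mem_union_left _ hv)
            card := hZ5 }
      · intro y hy
        have hsub : y.2.2 ⊆ bad := by
          intro v hv
          exact Finset.mem_union_right _ (Finset.mem_biUnion.mpr ⟨y, hy, hv⟩)
        have hd : Disjoint Z y.2.2 := Finset.disjoint_of_subset_right hsub hZ6
        exact ⟨hd, hd.symm⟩)
  exact ⟨fun a => (c a).1, fun a => (c a).2.1, fun a => (c a).2.2, hc1, hc2⟩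

end Fermat.Agent.H93.FF
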