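/-
helper93 (P-FF / FF-G7-AUX, row 774): existence of the auxiliary sections.

`auxSections : GenericSectionStatement → UnrLiftingStatement → UnrCoordStatement →
  AuxSectionsStatement`.
-/
import Fermat.Agent.H94.FF.G7Interfaces
import Fermat.Agent.H93.FF.AuxAbs

set_option autoImplicit false
set_option synthInstance.maxHeartbeats 400000
set_option linter.style.haveILetI false

noncomputable section

open AlgebraicCurve ModularCurve Fermat.Agent.H18 Fermat.Agent.H27.ESD

namespace Fermat.Agent.H93.FF

open Fermat.Agent.H10.FF Fermat.Agent.H72.FF Fermat.Agent.H94.FF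

/-- **FF-G7-AUX.** Existence of the auxiliary sections. -/
theorem auxSections (hGen : GenericSectionStatement) (hLift : UnrLiftingStatement)
    (hCoord : UnrCoordStatement) : AuxSectionsStatement := by
  classical
  intro N ℓ A r g hGeo Qs O t hJac
  haveI := hGeo.pkgk.infinite_places
  haveI := hGeo.pkgk.principal
  obtain ⟨Qi, hQi⟩ := Infinite.exists_notMem_finset (Finset.univ.image Qs)
  obtain ⟨Pinf, tinf, hc⟩ := hCoord N ℓ A r g hGeo Qi
  have hne : ∀ i, Qs i ≠ r Pinf := by
    intro i h
    rw [hc.red] at h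
    exact hQi (Finset.mem_image.mpr ⟨i, Finset.mem_univ i, h⟩)
  refine ⟨Pinf, hc.unrP, fun n₁ => ?_⟩
  obtain ⟨nL, hnL⟩ := hLift N ℓ A r g hGeo Pinf hc.unrP
  obtain ⟨nn, f, Zx, h1, h2⟩ := aux_family hGeo.pkgk.deg_one (r Pinf)
    (hGen N ℓ A r g hGeo (r Pinf)) (J := Fin g ⊕ Fin g) (fun a => Qs (jproj a))
    (fun a => hne _) (Finset.univ.image Qs) (max n₁ nL)
  have hmem : ∀ a, f a ∈ riemannRochSpace (Finsupp.single (r Pinf) (nn a : ℤ)) := by
    intro a
    rw [mem_riemannRochSpace_iff]
    intro v
    right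
    by_cases hv : v = r Pinf
    · rw [hv, Finsupp.single_eq_same, (h1 a).pole]
    · rw [Finsupp.single_eq_of_ne hv, neg_zero]
      exact (h1 a).reg v hv
  choose u hu1 hu2 hu3 using fun a =>
    hnL (nn a) (le_trans (le_max_right _ _) (h1 a).le) (f a) (hmem a)
  refine ⟨nn, u, Zx, fun a => le_trans (le_max_left _ _) (h1 a).le, hu1, hu2, ?_⟩
  have hf : (fun a => gaussRed A N (u a)) = f := funext hu3
  rw [hf]
  exact
    { qinf_ne := hne
      pole := fun a => (h1 a).pole
      zero_main := fun a => (h1 a).zero_main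
      zero_extra := fun a => (h1 a).zero_extra
      zero_else := fun a => (h1 a).zero_else
      qinf_notMem := fun a => (h1 a).qinf_notMem
      qs_notMem := fun a i =>
        (h1 a).avoid _ (Finset.mem_image.mpr ⟨i, Finset.mem_univ i, rfl⟩)
      disj := h2
      card := fun a => (h1 a).card }

end Fermat.Agent.H93.FF
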