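/-
helper93 (P-FF / FF-G5, row 623): generic sections on the special fibre.

`genericSection : Fermat.Agent.H72.FF.GenericSectionStatement`, by instantiating the abstract
pencil argument of `Fermat.Agent.H93.FF.genericSection_abs` with the separating element of
`F_k` (ES-D-A3) and the Hurwitz finiteness of the branch locus.
-/
import Fermat.Agent.H93.FF.GenericSectionAbs
import Fermat.Agent.H72.FF.GeoBlocks
import Fermat.Agent.H56.RH.HurwitzFinal
import Fermat.Agent.H89.ESDA3
import Fermat.Agent.H89.ESDA3AlgClosed

set_option autoImplicit false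
set_option synthInstance.maxHeartbeats 400000
set_option linter.style.haveILetI false

noncomputable section

open AlgebraicCurve ModularCurve

namespace Fermat.Agent.H93.FF

/-- **FF-G5.** Generic sections on the special fibre. -/
theorem genericSection : Fermat.Agent.H72.FF.GenericSectionStatement := by
  intro N ℓ A r g hGeo Qinf Q hQ bad
  haveI : NeZero N := ⟨hGeo.pos⟩
  haveI : Fact ℓ.Prime := ⟨hGeo.prime⟩
  haveI : IsAlgClosed (Fermat.Agent.H72.FF.kRes A) := hGeo.algClosed
  haveI : CharP (Fermat.Agent.H72.FF.kRes A) ℓ :=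
    Fermat.Agent.H89.charP_residueField_of_liesOverPrime A ℓ hGeo.liesOver
  obtain ⟨-, x, -, hfin, hsep⟩ := Fermat.Agent.H89.ffModLStatement N ℓ hGeo.ndvd A hGeo.liesOver
  haveI := hfin
  haveI := hsep
  exact genericSection_abs (K := Fermat.Agent.H72.FF.kRes A) (F := Fermat.Agent.H72.FF.Fkb A N)
    ℓ x Fermat.Agent.H56.RH.hurwitz hGeo.pkgk Qinf Q hQ bad

end Fermat.Agent.H93.FF
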